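import Fermat.Agent.S34.Top

/-!
# S35: reduction of the frozen statement to the universal tower (helper35)

The second conjunct of `S35` (shape of the characteristic polynomial of a Frobenius lift at a prime
`q` exactly dividing the level) follows from

* the density of powers of Frobenius lifts (`Fermat.Agent.S31.frobPowDense`, landed);
* a universal Hecke-Galois tower `U : Fermat.Agent.GAL.UTower N p S`;
* `SteinbergAt U q C` for some Hecke polynomial `C`, independent of the layer, at which the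
  eigensystem does not vanish:
  (i)  `C (τ' - 1) (τ - 1) = 0` on every layer, for `τ, τ'` in one inertia group `I` above `q`;
  (ii) `C (σ ^ 2 - q ^ 2) (σ ^ 2 - 1) = 0` on the `I`-invariants of every layer, for every
       Frobenius lift `σ`.

Proof: `Θ = σ + q σ⁻¹` is a Hecke scalar on the layer, and
`Θ ^ 2 - (q + 1) ^ 2 = σ⁻² (σ ^ 2 - q ^ 2) (σ ^ 2 - 1)`.  So `Z = C (Θ ^ 2 - (q + 1) ^ 2)` kills the
invariants; by (i) `C (τ - 1) w` is invariant, hence `Z C w` is invariant, hence `Z Z C w = 0`.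
Faithfulness of the tower turns this into a congruence for the trace modulo all powers of `p`.
-/

set_option autoImplicit false

namespace Fermat.Agent.S35

open Polynomial IsLocalRing CuspForm Fermat.Agent.S30 Fermat.Agent.S31 Fermat.Agent.GAL

/-- Steinberg-type behaviour of the tower at `q`, up to the Hecke polynomial `C`. -/
structure SteinbergAt {N p : ℕ} [NeZero N] {S : Finset ℕ} (U : UTower N p S) (q : ℕ) (C : HA) :
    Prop where
  unip : ∀ (k : ℕ) (P : ValuationSubring (AlgebraicClosure ℚ)), P.LiesOverPrime q →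
    ∀ τ ∈ P.inertiaSubgroupIn ℚ, ∀ τ' ∈ P.inertiaSubgroupIn ℚ, ∀ w : U.W k,
      C • (U.ρ k τ' (U.ρ k τ w - w) - (U.ρ k τ w - w)) = 0
  frob : ∀ (k : ℕ) (P : ValuationSubring (AlgebraicClosure ℚ)), P.LiesOverPrime q →
    ∀ σ : GQ, P.IsFrobeniusAt σ q → ∀ w : U.W k,
      (∀ τ ∈ P.inertiaSubgroupIn ℚ, U.ρ k τ w = w) →
      C • (U.ρ k (σ ^ 4) w - (q ^ 2 + 1) • U.ρ k (σ ^ 2) w + (q ^ 2) • w) = 0

section Inertia

variable {K L : Type*} [Field K] [Field L] [Algebra K L]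

/-- The inertia group is normalised by the decomposition group. -/
theorem conj_mem_inertiaSubgroupIn (A : ValuationSubring L) {σ τ : L ≃ₐ[K] L}
    (hσ : σ ∈ A.decompositionSubgroup K) (hτ : τ ∈ A.inertiaSubgroupIn K) :
    σ * τ * σ⁻¹ ∈ A.inertiaSubgroupIn K := by
  obtain ⟨t, ht, rfl⟩ := hτ
  have hn : (A.inertiaSubgroup K).Normal := by
    unfold ValuationSubring.inertiaSubgroup
    infer_instance
  exact ⟨(⟨σ, hσ⟩ : A.decompositionSubgroup K) * t * (⟨σ, hσ⟩ : A.decompositionSubgroup K)⁻¹,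
    hn.conj_mem t ht _, rfl⟩

end Inertia

section Layer

variable {W : Type*} [AddCommGroup W] [Module HA W] (r : GQ →* Module.End HA W)

/-- The abstract argument on one layer. -/
theorem smul_eq_zero_of_steinberg (I : Subgroup GQ) (σ : GQ)
    (hnorm : ∀ τ ∈ I, σ ^ 2 * τ * (σ ^ 2)⁻¹ ∈ I) (q : ℕ) (C Θ : HA)
    (hΘ : ∀ v : W, Θ • v = r σ v + q • r σ⁻¹ v)
    (hunip : ∀ τ ∈ I, ∀ τ' ∈ I, ∀ w : W, C • (r τ' (r τ w - w) - (r τ w - w)) = 0)
    (hfrob : ∀ w : W, (∀ τ ∈ I, r τ w = w) →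
      C • (r (σ ^ 4) w - (q ^ 2 + 1) • r (σ ^ 2) w + (q ^ 2) • w) = 0) (v : W) :
    ((C * (Θ ^ 2 - ((q : HA) + 1) ^ 2)) ^ 2 * C) • v = 0 := by
  set Z : HA := C * (Θ ^ 2 - ((q : HA) + 1) ^ 2) with hZ
  have hss : ∀ x : W, r σ (r σ⁻¹ x) = x := by
    intro x
    rw [← Module.End.mul_apply, ← map_mul, mul_inv_cancel, map_one, Module.End.one_apply]
  have hss' : ∀ x : W, r σ⁻¹ (r σ x) = x := by
    intro x
    rw [← Module.End.mul_apply, ← map_mul, inv_mul_cancel, map_one, Module.End.one_apply]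
  -- the operator `Θ ^ 2 - (q + 1) ^ 2`
  have hop : ∀ x : W, (Θ ^ 2 - ((q : HA) + 1) ^ 2) • x =
      r σ (r σ x) - (q ^ 2 + 1) • x + (q ^ 2) • r σ⁻¹ (r σ⁻¹ x) := by
    intro x
    have h1 : (((q : HA) + 1) ^ 2) • x = ((q + 1) ^ 2) • x := by
      have : ((q : HA) + 1) ^ 2 = (((q + 1) ^ 2 : ℕ) : HA) := by push_cast; ring
      rw [this, Nat.cast_smul_eq_nsmul]
    rw [sub_smul, pow_two, mul_smul, hΘ x, hΘ, h1, map_add, map_add, map_nsmul, map_nsmul, hss,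
      hss', smul_add, smul_smul]
    have e1 : ((q + 1) ^ 2) • x = (q ^ 2 + 1) • x + q • x + q • x := by
      rw [← add_smul, ← add_smul]
      congr 1
      ring
    rw [e1, ← pow_two]
    abel
  -- `Z` kills the invariants
  have hinv : ∀ x : W, (∀ τ ∈ I, r τ x = x) → Z • x = 0 := by
    intro x hx
    have hw : ∀ τ ∈ I, r τ (r (σ ^ 2)⁻¹ x) = r (σ ^ 2)⁻¹ x := by
      intro τ hτ
      have h1 := hx _ (hnorm τ hτ)
      rw [map_mul, map_mul, Module.End.mul_apply, Module.End.mul_apply] at h1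
      have h2 := congrArg (r (σ ^ 2)⁻¹) h1
      rwa [← Module.End.mul_apply (r (σ ^ 2)⁻¹) (r (σ ^ 2)), ← map_mul, inv_mul_cancel, map_one,
        Module.End.one_apply] at h2
    have h := hfrob _ hw
    have e4 : r (σ ^ 4) (r (σ ^ 2)⁻¹ x) = r σ (r σ x) := by
      rw [← Module.End.mul_apply, ← map_mul, ← Module.End.mul_apply, ← map_mul]
      have : σ ^ 4 * (σ ^ 2)⁻¹ = σ * σ := by
        rw [mul_inv_eq_iff_eq_mul, ← pow_two, ← pow_add]
      rw [this]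
    have e2 : r (σ ^ 2) (r (σ ^ 2)⁻¹ x) = x := by
      rw [← Module.End.mul_apply, ← map_mul, mul_inv_cancel, map_one, Module.End.one_apply]
    have e0 : r (σ ^ 2)⁻¹ x = r σ⁻¹ (r σ⁻¹ x) := by
      rw [← Module.End.mul_apply, ← map_mul, ← mul_inv_rev, ← pow_two]
    rw [e4, e2, e0] at h
    rw [hZ, mul_smul, hop, h]
  -- `Z C v` is invariant
  have hZC : ∀ τ ∈ I, r τ (Z • C • v) = Z • C • v := by
    intro τ hτ
    have h1 : ∀ τ' ∈ I, r τ' (C • (r τ v - v)) = C • (r τ v - v) := by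
      intro τ' hτ'
      have := hunip τ hτ τ' hτ' v
      rw [smul_sub, sub_eq_zero] at this
      rw [map_smul]
      exact this
    have h2 := hinv _ h1
    rw [smul_sub, smul_sub, sub_eq_zero] at h2
    rw [map_smul, map_smul]
    exact h2
  rw [pow_two, mul_smul, mul_smul]
  exact hinv _ hZC

end Layer

/-- The Hecke-algebra form of the Steinberg condition: congruences modulo all powers of `p`. -/
def HeckeTraceSteinberg (p N : ℕ) [NeZero N] (S : Finset ℕ) (q : ℕ)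
    (c : heckeAlgebra N 2 (↑S : Set ℕ)) : Prop :=
  ∀ n : ℕ, ∃ L : IntermediateField ℚ (AlgebraicClosure ℚ), FiniteDimensional ℚ L ∧
    ∀ (P : ValuationSubring (AlgebraicClosure ℚ)), P.LiesOverPrime q →
    ∀ φ : Gal, P.IsFrobeniusAt φ q →
    ∀ (ℓ : ℕ) (hℓ : ℓ.Prime) (hℓN : ¬ ℓ ∣ N) (hℓS : ℓ ∉ (↑S : Set ℕ))
      (A : ValuationSubring (AlgebraicClosure ℚ)) (σ : Gal) (w : ℕ),
      A.LiesOverPrime ℓ → A.IsFrobeniusAt σ ℓ →
      (∀ x ∈ L, (σ ^ w) x = φ x) →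
      (∃ b : heckeAlgebra N 2 (↑S : Set ℕ),
        (c * (lucas (heckeAlgebra.T hℓ hℓN hℓS : heckeAlgebra N 2 (↑S : Set ℕ)) (ℓ : _) w ^ 2 -
          ((q : heckeAlgebra N 2 (↑S : Set ℕ)) + 1) ^ 2)) ^ 2 * c =
          (p : heckeAlgebra N 2 (↑S : Set ℕ)) ^ n * b) ∧ ℓ ^ w ≡ q [MOD p ^ n]

variable {p : ℕ} {N : ℕ} [NeZero N] {S : Finset ℕ}

/-- **The Steinberg trace congruence from the universal tower.** -/
theorem heckeTraceSteinberg_of_utower [Fact p.Prime] (hpS : p ∈ S) (U : UTower N p S)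
    {q : ℕ} (hq : q.Prime) (hqp : q ≠ p) (C : HA) (hU : SteinbergAt U q C) :
    HeckeTraceSteinberg p N S q (MvPolynomial.aeval (heckeFun N S) C) := by
  obtain ⟨c, hc⟩ := exists_shift U.ι U.ι_injective p
  intro n
  obtain ⟨L₁, hL₁fin, hL₁⟩ := U.finiteLevel (n + c)
  obtain ⟨L₂, hL₂fin, hL₂⟩ := exists_cycloField p (n + c)
  refine ⟨L₁ ⊔ L₂, IntermediateField.finiteDimensional_sup L₁ L₂, ?_⟩
  intro P hP φ hφ ℓ hℓ hℓN hℓS A σ w hA hσ hagree
  have hle₁ : L₁ ≤ L₁ ⊔ L₂ := le_sup_left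
  have hle₂ : L₂ ≤ L₁ ⊔ L₂ := le_sup_right
  have hS1 : ℓ ∉ S := fun h => hℓS (Finset.mem_coe.mpr h)
  have hℓp : ℓ ≠ p := fun h => hS1 (h ▸ hpS)
  -- the two Galois elements act in the same way
  have hρ : U.ρ (n + c) (σ ^ w) = U.ρ (n + c) φ := by
    have h1 : U.ρ (n + c) (φ⁻¹ * σ ^ w) = 1 := by
      apply hL₁
      intro x hx
      rw [AlgEquiv.mul_apply, hagree x (hle₁ hx)]
      exact AlgEquiv.symm_apply_apply φ x
    have h2 : U.ρ (n + c) (σ ^ w) = U.ρ (n + c) φ * U.ρ (n + c) (φ⁻¹ * σ ^ w) := by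
      rw [← map_mul, mul_inv_cancel_left]
    rw [h2, h1, mul_one]
  have hρinv : U.ρ (n + c) (σ ^ w)⁻¹ = U.ρ (n + c) φ⁻¹ := by
    have h1 : U.ρ (n + c) (σ ^ w)⁻¹ * U.ρ (n + c) φ = 1 := by
      rw [← hρ, ← map_mul, inv_mul_cancel, map_one]
    calc U.ρ (n + c) (σ ^ w)⁻¹
        = U.ρ (n + c) (σ ^ w)⁻¹ * (U.ρ (n + c) φ * U.ρ (n + c) φ⁻¹) := by
          rw [← map_mul (U.ρ (n + c)) φ, mul_inv_cancel, map_one, mul_one]
      _ = U.ρ (n + c) φ⁻¹ := by rw [← mul_assoc, h1, one_mul]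
  -- the cyclotomic exponent
  have hcyc : ℓ ^ w ≡ q [MOD p ^ (n + c)] := by
    have h1 : IsCyc p (n + c) (σ ^ w) (ℓ ^ w) := (isCyc_frob hℓ hℓp ⟨A, hA, hσ⟩).pow w
    have h2 : IsCyc p (n + c) φ q := isCyc_frob hq hqp ⟨P, hP, hφ⟩
    have h3 : IsCyc p (n + c) (σ ^ w) q :=
      h2.congr (fun μ hμ => hagree μ (hle₂ (hL₂ μ hμ)))
    exact h1.modEq h3
  refine ⟨?_, hcyc.of_dvd (pow_dvd_pow p (Nat.le_add_right n c))⟩
  have hΘ : ∀ v : U.W (n + c), (lucas (MvPolynomial.X ℓ : HA) (ℓ : HA) w) • v =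
      U.ρ (n + c) φ v + q • U.ρ (n + c) φ⁻¹ v := by
    intro v
    rw [lucas_smul U (n + c) hℓ hS1 ⟨A, hA, hσ⟩ w v, hρ, hρinv,
      nsmul_eq_of_modEq hcyc _ (U.pow_smul (n + c) _)]
  have hkill := smul_eq_zero_of_steinberg (U.ρ (n + c)) (P.inertiaSubgroupIn ℚ) φ
    (fun τ hτ => conj_mem_inertiaSubgroupIn P
      (Subgroup.pow_mem _ hφ.mem_decompositionSubgroup 2) hτ) q C _ hΘ
    (fun τ hτ τ' hτ' v => hU.unip (n + c) P hP τ hτ τ' hτ' v)
    (fun v hv => hU.frob (n + c) P hP φ hφ v hv)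
  obtain ⟨E, hE⟩ := U.faithful (n + c) _ hkill
  obtain ⟨b, hb⟩ := hc n _ E hE
  refine ⟨b, ?_⟩
  rw [← hb]
  have e1 := map_lucas (MvPolynomial.aeval (heckeFun N S) : HA →ₐ[ℤ] _).toRingHom
    (MvPolynomial.X ℓ) (ℓ : HA) w
  simp only [AlgHom.toRingHom_eq_coe, RingHom.coe_coe, MvPolynomial.aeval_X, map_natCast] at e1
  simp only [map_mul, map_pow, map_sub, map_add, map_natCast, map_one]
  rw [e1, heckeFun_eq hℓ hℓN hℓS]

section Rep

variable {T : Type} [CommRing T] [IsDomain T] [IsLocalRing T] [IsHausdorff (maximalIdeal T) T]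

/-- **The characteristic polynomial of a Frobenius lift at `q` from the trace congruence.** -/
theorem charpoly_frob_of_inputs [Fact p.Prime] (hdense : FrobPowDense) {q : ℕ}
    {c : heckeAlgebra N 2 (↑S : Set ℕ)} (hcong : HeckeTraceSteinberg p N S q c)
    (hpT : (p : T) ∈ maximalIdeal T)
    (hNS : ∀ q : ℕ, q.Prime → q ∣ N → q ∈ S)
    (π : heckeAlgebra N 2 (↑S : Set ℕ) →+* T) (hc : π c ≠ 0) (ρ : GaloisRepAdic T)
    (hρ : ∀ (ℓ : ℕ) (hℓ : ℓ.Prime) (hℓN : ¬ ℓ ∣ N) (hℓS : ℓ ∉ (↑S : Set ℕ)),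
      ∀ A : ValuationSubring (AlgebraicClosure ℚ), A.LiesOverPrime ℓ →
        ∀ σ : AlgebraicClosure ℚ ≃ₐ[ℚ] AlgebraicClosure ℚ, A.IsFrobeniusAt σ ℓ →
          LinearMap.charpoly (ρ.ρ σ) = X ^ 2 - C (π (heckeAlgebra.T hℓ hℓN hℓS)) * X + C ((ℓ : T)))
    (P : ValuationSubring (AlgebraicClosure ℚ)) (hP : P.LiesOverPrime q)
    (φ : AlgebraicClosure ℚ ≃ₐ[ℚ] AlgebraicClosure ℚ) (hφ : P.IsFrobeniusAt φ q) :
    LinearMap.charpoly (ρ.ρ φ) = X ^ 2 - C ((q : T) + 1) * X + C ((q : T)) ∨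
      LinearMap.charpoly (ρ.ρ φ) = X ^ 2 + C ((q : T) + 1) * X + C ((q : T)) := by
  have hHaus : IsHausdorff (maximalIdeal T) T := inferInstance
  set t : T := LinearMap.trace T ρ.V (ρ.ρ φ) with ht
  -- approximation of `φ` by powers of Frobenius lifts
  have happrox : ∀ n : ℕ,
      (π c * (t ^ 2 - ((q : T) + 1) ^ 2)) ^ 2 * π c ∈ maximalIdeal T ^ n ∧
      LinearMap.det (ρ.ρ φ) - (q : T) ∈ maximalIdeal T ^ n := by
    intro n
    obtain ⟨L₁, hL₁fin, hL₁⟩ := ρ.isAdicContinuous n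
    obtain ⟨L₂, hL₂fin, hL₂⟩ := hcong n
    have hLfin : FiniteDimensional ℚ (L₁ ⊔ L₂ : IntermediateField ℚ (AlgebraicClosure ℚ)) :=
      IntermediateField.finiteDimensional_sup L₁ L₂
    obtain ⟨ℓ, A, σ, w, hℓ, hℓS, hA, hσ, hw⟩ := hdense (L₁ ⊔ L₂) hLfin S φ
    have hℓN : ¬ ℓ ∣ N := fun hd => hℓS (hNS ℓ hℓ hd)
    have hℓS1 : ℓ ∉ (↑S : Set ℕ) := by simpa using hℓS
    have hle₁ : L₁ ≤ L₁ ⊔ L₂ := le_sup_left
    have hle₂ : L₂ ≤ L₁ ⊔ L₂ := le_sup_right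
    obtain ⟨⟨b, hb⟩, hcyc⟩ := hL₂ P hP φ hφ ℓ hℓ hℓN hℓS1 A σ w hA hσ
      (fun x hx => hw x (hle₂ hx))
    constructor
    · have h1 := trace_sub_trace_mem ρ n L₁ hL₁ φ (σ ^ w) (fun x hx => (hw x (hle₁ hx)).symm)
      rw [map_pow, trace_pow_of_charpoly ρ.finrank_eq _ _ _ (hρ ℓ hℓ hℓN hℓS1 A hA σ hσ) w,
        ← ht] at h1
      set s : T := lucas (π (heckeAlgebra.T hℓ hℓN hℓS1)) (ℓ : T) w with hs
      have h3 : (π c * (s ^ 2 - ((q : T) + 1) ^ 2)) ^ 2 * π c ∈ maximalIdeal T ^ n := by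
        have h4 := congrArg π hb
        simp only [map_mul, map_pow, map_sub, map_add, map_natCast, map_one, map_lucas] at h4
        rw [hs, h4]
        exact Ideal.mul_mem_right _ _ (Ideal.pow_mem_pow hpT n)
      have e : (π c * (t ^ 2 - ((q : T) + 1) ^ 2)) ^ 2 * π c =
          (π c * (s ^ 2 - ((q : T) + 1) ^ 2)) ^ 2 * π c +
          (t - s) * (π c ^ 3 * (t + s) * (t ^ 2 + s ^ 2 - 2 * ((q : T) + 1) ^ 2)) := by ring
      rw [e]
      exact Ideal.add_mem _ h3 (Ideal.mul_mem_right _ _ h1)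
    · have h1 := S34.det_sub_det_mem ρ n L₁ hL₁ φ (σ ^ w) (fun x hx => (hw x (hle₁ hx)).symm)
      have hdet : LinearMap.det (ρ.ρ (σ ^ w)) = ((ℓ ^ w : ℕ) : T) := by
        rw [map_pow, map_pow, S34.det_eq_of_charpoly ρ.finrank_eq _ _ _
          (hρ ℓ hℓ hℓN hℓS1 A hA σ hσ)]
        push_cast
        rfl
      rw [hdet] at h1
      have h2 := natCast_sub_mem_of_modEq p hpT hcyc
      have := Ideal.add_mem _ h1 h2
      convert this using 1
      abel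
  have htr : (π c * (t ^ 2 - ((q : T) + 1) ^ 2)) ^ 2 * π c = 0 := by
    apply hHaus.haus
    intro n
    rw [SModEq.zero, smul_eq_mul, Ideal.mul_top]
    exact (happrox n).1
  have hdet : LinearMap.det (ρ.ρ φ) = (q : T) := by
    rw [← sub_eq_zero]
    apply hHaus.haus
    intro n
    rw [SModEq.zero, smul_eq_mul, Ideal.mul_top]
    exact (happrox n).2
  have ht2 : (t - ((q : T) + 1)) * (t + ((q : T) + 1)) = 0 := by
    have h1 : π c * (t ^ 2 - ((q : T) + 1) ^ 2) = 0 := by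
      rcases mul_eq_zero.mp htr with h | h
      · exact pow_eq_zero_iff (two_ne_zero) |>.mp h
      · exact absurd h hc
    rcases mul_eq_zero.mp h1 with h | h
    · exact absurd h hc
    · rw [← h]; ring
  rw [S34.charpoly_eq_of_finrank_two ρ.finrank_eq, hdet, ← ht]
  rcases mul_eq_zero.mp ht2 with h | h
  · left
    rw [sub_eq_zero.mp h]
  · right
    have : t = -((q : T) + 1) := eq_neg_of_add_eq_zero_left h
    rw [this, C_neg]
    ring

end Rep

/-- **S35 from the conclusion of S30, the universal tower and the Steinberg condition.** -/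
theorem result_of_utower {M : ℕ} [NeZero M] (lam : ℕ) [Fact lam.Prime] (S : Finset ℕ)
    (O' : Type) [CommRing O'] [IsDomain O'] [IsDiscreteValuationRing O']
    [IsAdicComplete (IsLocalRing.maximalIdeal O') O'] [Finite (IsLocalRing.ResidueField O')]
    [CharZero O'] (hlamO' : (lam : O') ∈ IsLocalRing.maximalIdeal O')
    (χ : CuspForm.heckeAlgebra M 2 (↑S : Set ℕ) →+* O')
    (hlamS : lam ∈ S) (hMS : ∀ q : ℕ, q.Prime → q ∣ M → q ∈ S)
    (hS30 : ∃ (O'' : Type) (_ : CommRing O'') (_ : IsDomain O'') (_ : IsDiscreteValuationRing O'')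
      (_ : IsAdicComplete (IsLocalRing.maximalIdeal O'') O'')
      (_ : Finite (IsLocalRing.ResidueField O'')) (_ : CharZero O'') (_ : Algebra O' O'')
      (_ : Module.Finite O' O'') (_ : IsLocalHom (algebraMap O' O'')),
      Function.Injective (algebraMap O' O'') ∧
      ∃ ρ : GaloisRepAdic O'',
        (∀ (ℓ : ℕ) (hℓ : ℓ.Prime) (hℓM : ¬ ℓ ∣ M) (hℓS : ℓ ∉ (↑S : Set ℕ)),
          ∀ A : ValuationSubring (AlgebraicClosure ℚ), A.LiesOverPrime ℓ →
            ∀ σ : AlgebraicClosure ℚ ≃ₐ[ℚ] AlgebraicClosure ℚ, A.IsFrobeniusAt σ ℓ →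
              LinearMap.charpoly (ρ.ρ σ) =
                X ^ 2 - C (algebraMap O' O'' (χ (CuspForm.heckeAlgebra.T hℓ hℓM hℓS))) * X
                  + C ((ℓ : O''))) ∧
        (∀ q : ℕ, q.Prime → ¬ q ∣ M → q ≠ lam → ρ.IsUnramifiedAt q))
    (U : UTower M lam S)
    (hSt : ∀ q : ℕ, q.Prime → q ≠ lam → q ∣ M → ¬ q ^ 2 ∣ M →
      ∃ Q : HA, χ (MvPolynomial.aeval (heckeFun M S) Q) ≠ 0 ∧ SteinbergAt U q Q) :
    ∃ (O'' : Type) (_ : CommRing O'') (_ : IsDomain O'') (_ : IsDiscreteValuationRing O'')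
      (_ : IsAdicComplete (IsLocalRing.maximalIdeal O'') O'')
      (_ : Finite (IsLocalRing.ResidueField O''))
      (_ : CharZero O'') (_ : Algebra O' O'') (_ : Module.Finite O' O'')
      (_ : IsLocalHom (algebraMap O' O'')),
      Function.Injective (algebraMap O' O'') ∧
      ∃ ρ : GaloisRepAdic O'',
        (∀ (ℓ : ℕ) (hℓ : ℓ.Prime) (hℓM : ¬ ℓ ∣ M) (hℓS : ℓ ∉ (↑S : Set ℕ)),
          ∀ A : ValuationSubring (AlgebraicClosure ℚ), A.LiesOverPrime ℓ →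
            ∀ σ : AlgebraicClosure ℚ ≃ₐ[ℚ] AlgebraicClosure ℚ, A.IsFrobeniusAt σ ℓ →
              LinearMap.charpoly (ρ.ρ σ) =
                X ^ 2 - C (algebraMap O' O'' (χ (CuspForm.heckeAlgebra.T hℓ hℓM hℓS))) * X
                  + C ((ℓ : O''))) ∧
        (∀ q : ℕ, q.Prime → q ≠ lam → q ∣ M → ¬ q ^ 2 ∣ M →
          ∀ A : ValuationSubring (AlgebraicClosure ℚ), A.LiesOverPrime q →
            ∀ σ : AlgebraicClosure ℚ ≃ₐ[ℚ] AlgebraicClosure ℚ, A.IsFrobeniusAt σ q →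
              LinearMap.charpoly (ρ.ρ σ) = X ^ 2 - C ((q : O'') + 1) * X + C ((q : O'')) ∨
              LinearMap.charpoly (ρ.ρ σ) = X ^ 2 + C ((q : O'') + 1) * X + C ((q : O''))) := by
  obtain ⟨O'', i1, i2, i3, i4, i5, i6, i7, i8, i9, hinj, ρ, h1, -⟩ := hS30
  refine ⟨O'', i1, i2, i3, i4, i5, i6, i7, i8, i9, hinj, ρ, h1, ?_⟩
  intro q hq hqlam hqM hq2 A hA σ hσ
  obtain ⟨Q, hQ, hSteinberg⟩ := hSt q hq hqlam hqM hq2
  have hlamO'' : (lam : O'') ∈ IsLocalRing.maximalIdeal O'' := by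
    have e : (lam : O'') = algebraMap O' O'' (lam : O') := by simp
    rw [e]
    exact map_nonunit (algebraMap O' O'') _ hlamO'
  refine charpoly_frob_of_inputs (p := lam) (N := M) (S := S) frobPowDense
    (heckeTraceSteinberg_of_utower hlamS U hq hqlam Q hSteinberg) hlamO'' hMS
    ((algebraMap O' O'').comp χ) ?_ ρ h1 A hA σ hσ
  rw [RingHom.comp_apply]
  exact fun h => hQ (hinj (by rw [h, map_zero]))

end Fermat.Agent.S35
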