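import Fermat.Agent.C1.Glue
import Fermat.Agent.C1.Mod.Main
import Fermat.Agent.GAL.Main
import Fermat.Agent.Lib.NewKill.Main

/-!
# S35: the frozen statement from the two remaining statements (helper35)

`result_of_statements : C1.ModelTStatement → C1.NodalStatement → (frozen S35)`.

* `C1.ModelTStatement` : the Kummer levels of the cluster GAL are the Kummer models of block E
  (final assembly of the cluster GAL);
* `C1.NodalStatement` : the nodal core (inertia acts trivially and `σ ^ 2 = q ^ 2` on the toric part).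

Everything else is landed: `S35.result_of_utower` (top), `Lib.NewKill.exists_oldKiller` (newness),
`C1.steinbergAt_utowerOfKummer` (middle layer), `C1.nonempty_alData`, `GAL.s30_of`.
-/

set_option autoImplicit false

namespace Fermat.Agent.S35

open Polynomial CuspForm Fermat.Agent.S30 Fermat.Agent.S31 Fermat.Agent.GAL

theorem weakCheb : WeakCheb := fun L _ σ S =>
  Lib.FrobDensity.exists_frobenius_generator L σ S

theorem kummerStatement_of_model (h : C1.ModelTStatement) : KummerStatement :=
  fun N _ p _ k => (h N p k).elim fun D _ => ⟨D⟩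

theorem allTraceCongruences (h : KummerStatement) : Lib.NewKill.AllTraceCongruences := by
  intro N _ p _ S hpS hNS
  exact heckeTraceCongruence_of_utower hpS hNS
    (utowerOfKummer Fact.out S hNS hpS fun k => (h N p k).some)

/-- A ring homomorphism from the ring of eigenvalues to a domain of characteristic zero is
injective. -/
theorem injective_of_range {M : ℕ} [NeZero M] {S : Set ℕ} {O' : Type} [CommRing O'] [IsDomain O']
    [CharZero O'] (chig : heckeAlgebra M 2 S →+* ℂ) (iota : chig.range →+* O') :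
    Function.Injective iota := by
  have hfin : Module.Finite ℤ (heckeAlgebra M 2 S) := S22.result M 2 S
  have hfin' : Module.Finite ℤ chig.range :=
    Module.Finite.of_surjective chig.rangeRestrict.toIntAlgHom.toLinearMap
      chig.rangeRestrict_surjective
  have hint : Algebra.IsIntegral ℤ chig.range := Algebra.IsIntegral.of_finite ℤ _
  rw [RingHom.injective_iff_ker_eq_bot]
  apply Ideal.eq_bot_of_comap_eq_bot (R := ℤ)
  rw [eq_bot_iff]
  intro n hn
  rw [Ideal.mem_comap, RingHom.mem_ker, eq_intCast, map_intCast, Int.cast_eq_zero] at hn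
  rw [hn]
  exact Ideal.zero_mem _

/-- **S35 from the model statement of the cluster GAL and the nodal statement.** -/
theorem result_of_statements (hModel : C1.ModelTStatement) (hNod : C1.NodalStatement)
    {M : ℕ} [NeZero M] {g : CuspForm (CongruenceSubgroup.Gamma0 M) 2} (hg : g.IsNewform)
    (lam : ℕ) [Fact lam.Prime]
    (S : Finset ℕ)
    (O' : Type) [CommRing O'] [IsDomain O'] [IsDiscreteValuationRing O']
    [IsAdicComplete (IsLocalRing.maximalIdeal O') O'] [Finite (IsLocalRing.ResidueField O')]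
    [CharZero O'] (hlamO' : (lam : O') ∈ IsLocalRing.maximalIdeal O')
    (chig : CuspForm.heckeAlgebra M 2 (↑S : Set ℕ) →+* ℂ)
    (hchig : ∀ (ℓ : ℕ) (hℓ : ℓ.Prime) (hℓM : ¬ ℓ ∣ M) (hℓS : ℓ ∉ (↑S : Set ℕ)),
      chig (CuspForm.heckeAlgebra.T hℓ hℓM hℓS) = ModularFormClass.qCoeff g ℓ)
    (iota : chig.range →+* O')
    (hlamS : lam ∈ S) (hMS : ∀ q : ℕ, q.Prime → q ∣ M → q ∈ S) :
    ∃ (O'' : Type) (_ : CommRing O'') (_ : IsDomain O'') (_ : IsDiscreteValuationRing O'')
      (_ : IsAdicComplete (IsLocalRing.maximalIdeal O'') O'')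
      (_ : Finite (IsLocalRing.ResidueField O''))
      (_ : CharZero O'') (_ : Algebra O' O'') (_ : Module.Finite O' O'')
      (_ : IsLocalHom (algebraMap O' O'')),
      Function.Injective (algebraMap O' O'') ∧
      ∃ ρ : GaloisRepAdic O'',
        (∀ (ℓ : ℕ) (hℓ : ℓ.Prime) (hℓM : ¬ ℓ ∣ M) (hℓS : ℓ ∉ (↑S : Set ℕ)),
          ∀ A : ValuationSubring (AlgebraicClosure ℚ), A.LiesOverPrime ℓ →
            ∀ σ : AlgebraicClosure ℚ ≃ₐ[ℚ] AlgebraicClosure ℚ, A.IsFrobeniusAt σ ℓ →
              LinearMap.charpoly (ρ.ρ σ) =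
                X ^ 2 - C (algebraMap O' O'' ((iota.comp chig.rangeRestrict)
                  (CuspForm.heckeAlgebra.T hℓ hℓM hℓS))) * X + C ((ℓ : O''))) ∧
        (∀ q : ℕ, q.Prime → q ≠ lam → q ∣ M → ¬ q ^ 2 ∣ M →
          ∀ A : ValuationSubring (AlgebraicClosure ℚ), A.LiesOverPrime q →
            ∀ σ : AlgebraicClosure ℚ ≃ₐ[ℚ] AlgebraicClosure ℚ, A.IsFrobeniusAt σ q →
              LinearMap.charpoly (ρ.ρ σ) = X ^ 2 - C ((q : O'') + 1) * X + C ((q : O'')) ∨
              LinearMap.charpoly (ρ.ρ σ) = X ^ 2 + C ((q : O'') + 1) * X + C ((q : O''))) := by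
  have hK := kummerStatement_of_model hModel
  have hlam : lam.Prime := Fact.out
  choose D hD using fun k => hModel M lam k
  refine result_of_utower lam S O' hlamO' (iota.comp chig.rangeRestrict) hlamS hMS
    (s30_of weakCheb hK lam M S hlamS hMS O' hlamO' (iota.comp chig.rangeRestrict))
    (utowerOfKummer hlam S hMS hlamS D) ?_
  intro q hq hqlam hqM hq2
  obtain ⟨M', hM'⟩ := hqM
  rw [mul_comm] at hM'
  subst hM'
  have hM'0 : M' ≠ 0 := fun h => NeZero.ne (M' * q) (by rw [h, zero_mul])
  have : NeZero M' := ⟨hM'0⟩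
  have : NeZero q := ⟨hq.ne_zero⟩
  have hqM' : ¬ q ∣ M' := by
    intro h
    apply hq2
    rw [pow_two]
    exact Nat.mul_dvd_mul_right h q
  obtain ⟨AL⟩ := C1.nonempty_alData M' q hq hqM'
  obtain ⟨d, hd, hnod⟩ := hNod M' q hq hqM' AL
  choose D' hD' using fun k => hModel M' lam k
  have hne : M' ≠ M' * q := by
    intro h
    have h1 : M' * 1 = M' * q := by rw [mul_one]; exact h
    exact hq.one_lt.ne (Nat.eq_of_mul_eq_mul_left (Nat.pos_of_ne_zero hM'0) h1)
  obtain ⟨Q, hQ0, hQ1⟩ := Lib.NewKill.exists_oldKiller (allTraceCongruences hK) hg S chig hchig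
    hMS M' (Dvd.intro _ rfl) hne
  refine ⟨(d : HA) * Q, ?_, C1.steinbergAt_utowerOfKummer hlam S hMS hlamS hq hqlam D hD D' hD' AL d
    (fun A hA k => hnod A hA (lam ^ k) (fun h => hqlam
      ((Nat.prime_dvd_prime_iff_eq hq hlam).mp (hq.dvd_of_dvd_pow h)))) Q hQ0⟩
  rw [map_mul, map_mul, map_natCast, map_natCast]
  refine mul_ne_zero (Nat.cast_ne_zero.mpr hd) ?_
  rw [RingHom.comp_apply]
  intro h
  have h2 := injective_of_range chig iota (h.trans (map_zero iota).symm)
  exact hQ1 (congrArg Subtype.val h2)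

end Fermat.Agent.S35
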